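import Fermat.Agent.S16.TwoAdic7.Defs
import Fermat.Agent.S23.MF

/-!
# S16 / TwoAdic7 / FormExp (T2a): the form `Y = P(G, E₄, E₆, Δ)` and its two expansions (helper88)
-/

set_option autoImplicit false

namespace Fermat.Agent.S16TA

open UpperHalfPlane ModularForm ModularFormClass EisensteinSeries
open scoped MatrixGroups

open Fermat.Agent.S16

variable {p : ℕ} {hp : p ≠ 0}

/-- `f` is (the function of) a form of weight `k` on `Γ₀(p)` with `q`-expansion `A` at `∞` and
expansion `B` at the cusp `0`. -/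
def HasExp (T : CuspZeroData p hp) (k : ℤ) (f : ℍ → ℂ) (A B : PowerSeries ℂ) : Prop :=
  ∃ F : ModularForm (CongruenceSubgroup.Gamma0 p) k, ⇑F = f ∧ qExpansion 1 F = A ∧ T.Z k F = B

namespace HasExp

variable {T : CuspZeroData p hp} {k k₁ k₂ : ℤ} {f g : ℍ → ℂ} {A B A' B' : PowerSeries ℂ}

theorem of (T : CuspZeroData p hp) (F : ModularForm (CongruenceSubgroup.Gamma0 p) k) :
    HasExp T k F (qExpansion 1 F) (T.Z k F) := ⟨F, rfl, rfl, rfl⟩

theorem cast (h : k₁ = k₂) (hf : HasExp T k₁ f A B) : HasExp T k₂ f A B := h ▸ hf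

theorem add (hf : HasExp T k f A B) (hg : HasExp T k g A' B') :
    HasExp T k (f + g) (A + A') (B + B') := by
  obtain ⟨F, rfl, rfl, rfl⟩ := hf
  obtain ⟨G, rfl, rfl, rfl⟩ := hg
  refine ⟨F + G, rfl, ?_, T.Z_add k F G⟩
  exact ModularForm.qExpansion_add one_pos (Fermat.Agent.S23.one_mem_strictPeriods_G0 p) F G

theorem smul (c : ℂ) (hf : HasExp T k f A B) : HasExp T k (c • f) (c • A) (c • B) := by
  obtain ⟨F, rfl, rfl, rfl⟩ := hf
  refine ⟨c • F, rfl, ?_, T.Z_smul k c F⟩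
  exact ModularForm.qExpansion_smul one_pos (Fermat.Agent.S23.one_mem_strictPeriods_G0 p) c F

theorem mul (hf : HasExp T k₁ f A B) (hg : HasExp T k₂ g A' B') :
    HasExp T (k₁ + k₂) (f * g) (A * A') (B * B') := by
  obtain ⟨F, rfl, rfl, rfl⟩ := hf
  obtain ⟨G, rfl, rfl, rfl⟩ := hg
  refine ⟨F.mul G, rfl, ?_, T.Z_mul k₁ k₂ F G (F.mul G) rfl⟩
  exact ModularForm.qExpansion_mul one_pos (Fermat.Agent.S23.one_mem_strictPeriods_G0 p) F G

theorem levelOne (T : CuspZeroData p hp) (E : ModularForm 𝒮ℒ k) :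
    HasExp T k E (qExpansion 1 E) (PowerSeries.expand p hp (qExpansion 1 E)) := by
  obtain ⟨F, hF⟩ := (Fermat.Agent.S23.IsMF.of E).mono (Fermat.Agent.S23.G0_le_SL p)
  refine ⟨F, hF, ?_, T.Z_levelOne k E F hF⟩
  rw [hF]

theorem discriminant (T : CuspZeroData p hp) :
    HasExp T 12 ModularForm.discriminant (qExpansion 1 ModularForm.discriminant)
      (PowerSeries.expand p hp (qExpansion 1 ModularForm.discriminant)) :=
  HasExp.levelOne T (ModularFormClass.modularForm CuspForm.discriminant)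

end HasExp

/-- **T2a**: the form `Y = P(G, E₄, E₆, Δ)` with its expansions at both cusps. -/
theorem formExp (p : ℕ) (hp : p ≠ 0) (T : CuspZeroData p hp) : FormExpStatement p hp T := by
  intro G
  have hG := HasExp.of T G
  have hE4 := HasExp.levelOne T E₄
  have hE6 := HasExp.levelOne T E₆
  have hΔ := HasExp.discriminant T
  have G2 := (hG.mul hG).cast (show (2 : ℤ) + 2 = 4 by norm_num)
  have G4 := (G2.mul G2).cast (show (4 : ℤ) + 4 = 8 by norm_num)
  have t1 := (G4.mul hE4).cast (show (8 : ℤ) + 4 = 12 by norm_num)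
  have E42 := (hE4.mul hE4).cast (show (4 : ℤ) + 4 = 8 by norm_num)
  have t2 := (G2.mul E42).cast (show (4 : ℤ) + 8 = 12 by norm_num)
  have t3 := ((hG.mul hE4).mul hE6).cast (show (2 : ℤ) + 4 + 6 = 12 by norm_num)
  have t4 := (E42.mul hE4).cast (show (8 : ℤ) + 4 = 12 by norm_num)
  obtain ⟨Y, hf, hA, hB⟩ := (((((t1.smul (-5)).add (t2.smul 14)).add (t3.smul (-8))).add
    (t4.smul (-1))).add (hΔ.smul (-256))).smul ((512 : ℂ)⁻¹)
  refine ⟨Y, fun τ => ?_, ?_, ?_⟩
  · have h := congrFun hf τ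
    rw [h]
    simp only [Pi.smul_apply, Pi.add_apply, Pi.mul_apply, smul_eq_mul]
    field_simp
    ring
  · rw [hA, polyY]
    simp only [PowerSeries.smul_eq_C_mul, map_neg, map_ofNat, map_one]
    ring
  · rw [hB, polyY]
    simp only [PowerSeries.smul_eq_C_mul, map_neg, map_ofNat, map_one]
    ring

end Fermat.Agent.S16TA
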