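import Mathlib

/-!
# S16 / TwoAdic7 / T1: the 2-adic algebra lemma (helper88, for helper37's value-at-rho argument)

`g ≡ 1 mod 8`, `e4 ≡ 1 mod 16`, `e6 ≡ 1 mod 8`, `e4³ - e6² = 1728 d`  (in a commutative ring in
which `2` is a non-zero-divisor).  Then `φ = (g² - e4)/16`, `ψ = (g³ - e6)/8`,
`θ = (ψ - 3 φ g)/4` and `y = ((θ g - φ²) e4 - d)/2` exist in the ring.
-/

set_option autoImplicit false

namespace Fermat.Agent.S16TA

variable {S : Type*} [CommRing S]

/-- cancelling `16` when `2` is a non-zero-divisor -/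
theorem sixteen_cancel (h2 : ∀ x : S, 2 * x = 0 → x = 0) {x y : S} (h : 16 * x = 16 * y) :
    x = y := by
  have h16 : ∀ z : S, 16 * z = 0 → z = 0 := by
    intro z hz
    apply h2; apply h2; apply h2; apply h2
    linear_combination hz
  have := h16 (x - y) (by linear_combination h)
  exact sub_eq_zero.mp this

/-- T1 with explicit parameters `g = 1 + 8a`, `e4 = 1 + 16 b`, `e6 = 1 + 8c`. -/
theorem algebra_core (h2 : ∀ x : S, 2 * x = 0 → x = 0) (a b c d : S)
    (hrel : (1 + 16 * b) ^ 3 - (1 + 8 * c) ^ 2 = 1728 * d) :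
    ∃ φ ψ θ y : S, 16 * φ = (1 + 8 * a) ^ 2 - (1 + 16 * b) ∧
      8 * ψ = (1 + 8 * a) ^ 3 - (1 + 8 * c) ∧
      4 * θ = ψ - 3 * φ * (1 + 8 * a) ∧
      2 * y = (θ * (1 + 8 * a) - φ ^ 2) * (1 + 16 * b) - d := by
  have H : 3 * b + 48 * b ^ 2 + 256 * b ^ 3 - c - 4 * c ^ 2 = 108 * d := by
    apply sixteen_cancel h2
    linear_combination hrel
  obtain ⟨k, hk1⟩ : ∃ k : S, k = 27 * d - 12 * b ^ 2 - 64 * b ^ 3 + c ^ 2 := ⟨_, rfl⟩
  have hk : 3 * b - c = 4 * k := by
    rw [hk1]; linear_combination H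
  refine ⟨a + 4 * a ^ 2 - b, 3 * a + 24 * a ^ 2 + 64 * a ^ 3 - c,
    -3 * a ^ 2 - 8 * a ^ 3 + 6 * a * b + k,
    (-2 * a ^ 2 - 20 * a ^ 3 - 40 * a ^ 4 + 4 * a * b + 28 * a ^ 2 * b + 4 * a * k
      + 13 * d - 2 * b ^ 2 - 32 * b ^ 3 - 12 * b * k + 8 * k ^ 2) * (1 + 16 * b) + 8 * b * d,
    by ring, by ring, by linear_combination (-1 : S) * hk, ?_⟩
  linear_combination (-(1 + 16 * b)) * hk1 + ((c + 3 * b - 4 * k) * (1 + 16 * b)) * hk

/-- **T1** (helper37's algebra lemma). -/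
theorem algebra_T1 (h2 : ∀ x : S, 2 * x = 0 → x = 0) {g e4 e6 d : S}
    (hg : (8 : S) ∣ g - 1) (he4 : (16 : S) ∣ e4 - 1) (he6 : (8 : S) ∣ e6 - 1)
    (hrel : e4 ^ 3 - e6 ^ 2 = 1728 * d) :
    ∃ φ ψ θ y : S, 16 * φ = g ^ 2 - e4 ∧ 8 * ψ = g ^ 3 - e6 ∧ 4 * θ = ψ - 3 * φ * g ∧
      2 * y = (θ * g - φ ^ 2) * e4 - d := by
  obtain ⟨a, ha⟩ := hg
  obtain ⟨b, hb⟩ := he4
  obtain ⟨c, hc⟩ := he6
  have ha' : g = 1 + 8 * a := by linear_combination ha
  have hb' : e4 = 1 + 16 * b := by linear_combination hb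
  have hc' : e6 = 1 + 8 * c := by linear_combination hc
  subst ha' hb' hc'
  exact algebra_core h2 a b c d hrel

/-- `2` is a non-zero-divisor in a domain of characteristic zero. -/
theorem two_regular_of_charZero [NoZeroDivisors S] [CharZero S] (x : S) (h : 2 * x = 0) :
    x = 0 := by
  rcases mul_eq_zero.mp h with h' | h'
  · exact absurd h' two_ne_zero
  · exact h'

/-- **T1, transported**: if `φ', ψ', θ', y'` are defined by the same divisions in a bigger ring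
`K` (in which `2` is a non-zero-divisor, e.g. a `ℚ`-algebra), they come from `S`. -/
theorem algebra_T1_map {K : Type*} [CommRing K] (ι : S →+* K)
    (h2 : ∀ x : S, 2 * x = 0 → x = 0) (h2K : ∀ x : K, 2 * x = 0 → x = 0) {g e4 e6 d : S}
    (hg : (8 : S) ∣ g - 1) (he4 : (16 : S) ∣ e4 - 1) (he6 : (8 : S) ∣ e6 - 1)
    (hrel : e4 ^ 3 - e6 ^ 2 = 1728 * d) {φ' ψ' θ' y' : K}
    (h16 : 16 * φ' = ι g ^ 2 - ι e4) (h8 : 8 * ψ' = ι g ^ 3 - ι e6)
    (h4 : 4 * θ' = ψ' - 3 * φ' * ι g) (h2y : 2 * y' = (θ' * ι g - φ' ^ 2) * ι e4 - ι d) :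
    ∃ φ ψ θ y : S, ι φ = φ' ∧ ι ψ = ψ' ∧ ι θ = θ' ∧ ι y = y' := by
  obtain ⟨φ, ψ, θ, y, e16, e8, e4', e2⟩ := algebra_T1 h2 hg he4 he6 hrel
  have c2 : ∀ u v : K, 2 * u = 2 * v → u = v := fun u v h =>
    sub_eq_zero.mp (h2K _ (by linear_combination h))
  have c4 : ∀ u v : K, 4 * u = 4 * v → u = v := fun u v h =>
    c2 _ _ (c2 _ _ (by linear_combination h))
  have c8 : ∀ u v : K, 8 * u = 8 * v → u = v := fun u v h =>
    c4 _ _ (c2 _ _ (by linear_combination h))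
  have c16 : ∀ u v : K, 16 * u = 16 * v → u = v := fun u v h =>
    c8 _ _ (c2 _ _ (by linear_combination h))
  have hφ : ι φ = φ' := by
    apply c16
    have := congrArg ι e16
    simp only [map_mul, map_sub, map_pow, map_ofNat] at this
    rw [this, h16]
  have hψ : ι ψ = ψ' := by
    apply c8
    have := congrArg ι e8
    simp only [map_mul, map_sub, map_pow, map_ofNat] at this
    rw [this, h8]
  have hθ : ι θ = θ' := by
    apply c4
    have := congrArg ι e4'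
    simp only [map_mul, map_sub, map_ofNat] at this
    rw [this, h4, hφ, hψ]
  have hy : ι y = y' := by
    apply c2
    have := congrArg ι e2
    simp only [map_mul, map_sub, map_pow, map_ofNat] at this
    rw [this, h2y, hφ, hθ]
  exact ⟨φ, ψ, θ, y, hφ, hψ, hθ, hy⟩

/-- The endgame arithmetic (T8): in a commutative ring where `2` is not a unit, a relation
`∑ i ∈ range (n+1), (± 2^i) c i = 0`-type identity with unit leading term is impossible.
Form used: `u + 2 * r = 0` with `u` a unit forces `2` to be a unit. -/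
theorem isUnit_two_of_unit_add {R : Type*} [CommRing R] {u r : R} (hu : IsUnit u)
    (h : u + 2 * r = 0) : IsUnit (2 : R) := by
  have h' : 2 * (-r) = u := by linear_combination -h
  have : IsUnit (2 * (-r)) := h' ▸ hu
  exact isUnit_of_mul_isUnit_left this

end Fermat.Agent.S16TA
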