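import Fermat.Agent.S16.TwoAdic7.Defs
import Fermat.Agent.S16.TwoAdic7.Algebra
import Fermat.Agent.S16.SwD.RamZ

/-!
# S16 / TwoAdic7 / T2b: integrality of `P(g, E₄, E₆, Δ)` (helper67)

For a subring `R ⊆ ℂ` and a series `g` with coefficients in `R`, `g ≡ 1 mod 8`, the series
`polyY g E₄ E₆ Δ` and `polyY g E₄(q^p) E₆(q^p) Δ(q^p)` have coefficients in `R`.
Proof: helper88's `algebra_T1_map` with `S = R⟦q⟧`, `K = ℂ⟦q⟧`, and the integer series
`e4Z ≡ 1 mod 16`, `e6Z ≡ 1 mod 8`, `1728 deltaZ = e4Z³ - e6Z²` (`SwD`).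
-/

set_option autoImplicit false

namespace Fermat.Agent.S16TA

open UpperHalfPlane ModularForm ModularFormClass EisensteinSeries
open scoped MatrixGroups

open Fermat.Agent.S16 Fermat.Agent.SwD

/-- coefficient of a numeral times a series -/
lemma formInt_coeff_natCast_mul {A : Type*} [CommRing A] (c n : ℕ) (f : PowerSeries A) :
    PowerSeries.coeff n ((c : PowerSeries A) * f) = (c : A) * PowerSeries.coeff n f := by
  rw [← map_natCast (PowerSeries.C (R := A)) c, PowerSeries.coeff_C_mul]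

lemma formInt_e4Z_dvd : (16 : PowerSeries ℤ) ∣ e4Z - 1 := by
  refine ⟨PowerSeries.mk fun n => if n = 0 then 0 else 15 * ∑ d ∈ n.divisors, (d : ℤ) ^ 3, ?_⟩
  ext n
  have h16 : (16 : PowerSeries ℤ) = ((16 : ℕ) : PowerSeries ℤ) := by norm_num
  rw [h16, formInt_coeff_natCast_mul, map_sub, PowerSeries.coeff_one, PowerSeries.coeff_mk,
    e4Z, ModularCurve.eisenstein4, PowerSeries.coeff_mk]
  by_cases hn : n = 0
  · simp [hn]
  · simp only [hn, if_false]
    push_cast
    ring

lemma formInt_e6Z_dvd : (8 : PowerSeries ℤ) ∣ e6Z - 1 := by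
  refine ⟨PowerSeries.mk fun n => if n = 0 then 0 else -63 * ∑ d ∈ n.divisors, (d : ℤ) ^ 5, ?_⟩
  ext n
  have h8 : (8 : PowerSeries ℤ) = ((8 : ℕ) : PowerSeries ℤ) := by norm_num
  rw [h8, formInt_coeff_natCast_mul, map_sub, PowerSeries.coeff_one, PowerSeries.coeff_mk,
    e6Z, PowerSeries.coeff_mk]
  by_cases hn : n = 0
  · simp [hn]
  · simp only [hn, if_false]
    push_cast
    ring

/-- `2` is a non-zero-divisor on power series over a subring of `ℂ`. -/
lemma formInt_two_regular (R : Subring ℂ) (x : PowerSeries ↥R) (h : 2 * x = 0) : x = 0 := by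
  ext n
  have h1 := congrArg (PowerSeries.coeff n) h
  have h2 : (2 : PowerSeries ↥R) = ((2 : ℕ) : PowerSeries ↥R) := by norm_num
  rw [h2, formInt_coeff_natCast_mul, map_zero] at h1
  have h3 : ((2 : ℕ) : ℂ) * ((PowerSeries.coeff n x : ↥R) : ℂ) = 0 := by
    have := congrArg (fun t : ↥R => (t : ℂ)) h1
    simpa using this
  have h4 : ((PowerSeries.coeff n x : ↥R) : ℂ) = 0 := by
    rcases mul_eq_zero.mp h3 with h | h
    · norm_num at h
    · exact h
  rw [map_zero]
  exact_mod_cast h4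

lemma formInt_two_regular_complex (x : PowerSeries ℂ) (h : 2 * x = 0) : x = 0 := by
  ext n
  have h1 := congrArg (PowerSeries.coeff n) h
  have h2 : (2 : PowerSeries ℂ) = ((2 : ℕ) : PowerSeries ℂ) := by norm_num
  rw [h2, formInt_coeff_natCast_mul, map_zero] at h1
  rcases mul_eq_zero.mp h1 with h | h
  · norm_num at h
  · rw [map_zero]; exact h

/-- Core: integrality of `polyY` for series coming from `R⟦q⟧` with the right congruences. -/
theorem polyY_coeff_mem (R : Subring ℂ) (gS e4S e6S dS : PowerSeries ↥R)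
    (hg : (8 : PowerSeries ↥R) ∣ gS - 1) (he4 : (16 : PowerSeries ↥R) ∣ e4S - 1)
    (he6 : (8 : PowerSeries ↥R) ∣ e6S - 1) (hrel : e4S ^ 3 - e6S ^ 2 = 1728 * dS) (n : ℕ) :
    (polyY (PowerSeries.map R.subtype gS) (PowerSeries.map R.subtype e4S)
      (PowerSeries.map R.subtype e6S) (PowerSeries.map R.subtype dS)).coeff n ∈ R := by
  set ι := PowerSeries.map R.subtype with hι
  set g := ι gS with hgdef
  set e4 := ι e4S with he4def
  set e6 := ι e6S with he6def
  set d := ι dS with hddef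
  -- constants
  have hC : ∀ (a b : ℂ), a * b = 1 → ∀ x : PowerSeries ℂ,
      PowerSeries.C a * (PowerSeries.C b * x) = x := by
    intro a b hab x
    rw [← mul_assoc, ← map_mul, hab, map_one, one_mul]
  have hnum : ∀ m : ℕ, ((m : ℕ) : PowerSeries ℂ) = PowerSeries.C (m : ℂ) := fun m =>
    (map_natCast (PowerSeries.C (R := ℂ)) m).symm
  set φ' : PowerSeries ℂ := PowerSeries.C ((16 : ℂ)⁻¹) * (g ^ 2 - e4) with hφ'
  set ψ' : PowerSeries ℂ := PowerSeries.C ((8 : ℂ)⁻¹) * (g ^ 3 - e6) with hψ'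
  set θ' : PowerSeries ℂ := PowerSeries.C ((4 : ℂ)⁻¹) * (ψ' - 3 * φ' * g) with hθ'
  set y' : PowerSeries ℂ := polyY g e4 e6 d with hy'
  have h16 : 16 * φ' = g ^ 2 - e4 := by
    have : (16 : PowerSeries ℂ) = PowerSeries.C (16 : ℂ) := by
      rw [← Nat.cast_ofNat (R := PowerSeries ℂ), hnum]; norm_num
    rw [this, hφ']
    exact hC 16 (16 : ℂ)⁻¹ (by norm_num) _
  have h8 : 8 * ψ' = g ^ 3 - e6 := by
    have : (8 : PowerSeries ℂ) = PowerSeries.C (8 : ℂ) := by
      rw [← Nat.cast_ofNat (R := PowerSeries ℂ), hnum]; norm_num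
    rw [this, hψ']
    exact hC 8 (8 : ℂ)⁻¹ (by norm_num) _
  have h4 : 4 * θ' = ψ' - 3 * φ' * g := by
    have : (4 : PowerSeries ℂ) = PowerSeries.C (4 : ℂ) := by
      rw [← Nat.cast_ofNat (R := PowerSeries ℂ), hnum]; norm_num
    rw [this, hθ']
    exact hC 4 (4 : ℂ)⁻¹ (by norm_num) _
  have h512 : 512 * y' = -5 * g ^ 4 * e4 + 14 * g ^ 2 * e4 ^ 2 - 8 * g * e4 * e6 - e4 ^ 3
      - 256 * d := by
    have : (512 : PowerSeries ℂ) = PowerSeries.C (512 : ℂ) := by
      rw [← Nat.cast_ofNat (R := PowerSeries ℂ), hnum]; norm_num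
    rw [this, hy', polyY]
    exact hC 512 (512 : ℂ)⁻¹ (by norm_num) _
  have h2K := formInt_two_regular_complex
  have h2y : 2 * y' = (θ' * g - φ' ^ 2) * e4 - d := by
    have key : 512 * (2 * y' - ((θ' * g - φ' ^ 2) * e4 - d)) = 0 := by
      linear_combination 2 * h512 - 128 * g * e4 * h4 - 16 * g * e4 * h8
        + (24 * g ^ 2 * e4 + 2 * e4 * (16 * φ' + (g ^ 2 - e4))) * h16
    have h512reg : ∀ x : PowerSeries ℂ, 512 * x = 0 → x = 0 := by
      intro x hx
      apply h2K; apply h2K; apply h2K; apply h2K; apply h2K; apply h2K; apply h2K; apply h2K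
      apply h2K
      linear_combination hx
    exact sub_eq_zero.mp (h512reg _ key)
  obtain ⟨φ, ψ, θ, y, -, -, -, hy⟩ := algebra_T1_map ι (formInt_two_regular R) h2K hg he4 he6
    hrel h16 h8 h4 h2y
  rw [← hy, hι, PowerSeries.coeff_map]
  exact (PowerSeries.coeff n y).2

/-- **T2b**. -/
theorem formInt (p : ℕ) (hp : p ≠ 0) : FormIntStatement p hp := by
  intro R g h0 hn
  -- the series `g` comes from `R⟦q⟧`
  have hall : ∀ n : ℕ, ∃ r : ↥R, g.coeff n - (if n = 0 then 1 else 0) = 8 * (r : ℂ) := by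
    intro n
    by_cases h : n = 0
    · subst h
      obtain ⟨r, hr, h⟩ := h0
      exact ⟨⟨r, hr⟩, by simpa using h⟩
    · obtain ⟨r, hr, h'⟩ := hn n (Nat.one_le_iff_ne_zero.mpr h)
      exact ⟨⟨r, hr⟩, by simpa [h] using h'⟩
  choose r hr using hall
  set aS : PowerSeries ↥R := PowerSeries.mk r with haS
  set gS : PowerSeries ↥R := 1 + 8 * aS with hgS
  have hgmap : PowerSeries.map R.subtype gS = g := by
    ext n
    have h8 : (8 : PowerSeries ↥R) = ((8 : ℕ) : PowerSeries ↥R) := by norm_num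
    have hcoef : PowerSeries.coeff n gS = (if n = 0 then 1 else 0) + ((8 : ℕ) : ↥R) * r n := by
      rw [hgS, map_add, h8, formInt_coeff_natCast_mul, haS, PowerSeries.coeff_mk,
        PowerSeries.coeff_one]
    have hsub : ∀ x : ↥R, R.subtype x = (x : ℂ) := fun x => rfl
    rw [PowerSeries.coeff_map, hcoef, hsub, Subring.coe_add, Subring.coe_mul,
      Subring.coe_natCast]
    have := hr n
    by_cases h : n = 0
    · simp only [h, if_true] at this ⊢
      rw [Subring.coe_one]
      push_cast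
      linear_combination -this
    · simp only [h, if_false] at this ⊢
      rw [Subring.coe_zero]
      push_cast
      linear_combination -this
  have hg : (8 : PowerSeries ↥R) ∣ gS - 1 := ⟨aS, by rw [hgS]; ring⟩
  set κ := PowerSeries.map (Int.castRingHom ↥R) with hκ
  have hcomp : ∀ f : PowerSeries ℤ, PowerSeries.map R.subtype (κ f) =
      PowerSeries.map (Int.castRingHom ℂ) f := by
    intro f
    ext n
    simp [hκ]
  have he4 : (16 : PowerSeries ↥R) ∣ κ e4Z - 1 := by
    have := map_dvd κ formInt_e4Z_dvd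
    rwa [map_sub, map_one, map_ofNat] at this
  have he6 : (8 : PowerSeries ↥R) ∣ κ e6Z - 1 := by
    have := map_dvd κ formInt_e6Z_dvd
    rwa [map_sub, map_one, map_ofNat] at this
  have hrel : κ e4Z ^ 3 - κ e6Z ^ 2 = 1728 * κ deltaZ := (delta_map (A := ↥R)).symm
  have hE4 : PowerSeries.map R.subtype (κ e4Z) = qExpansion 1 E₄ := by
    rw [hcomp, qExpansion_E₄_eq]
  have hE6 : PowerSeries.map R.subtype (κ e6Z) = qExpansion 1 E₆ := by
    rw [hcomp, qExpansion_E₆_eq]
  have hD : PowerSeries.map R.subtype (κ deltaZ) = qExpansion 1 ModularForm.discriminant := by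
    rw [hcomp, qExpansion_discriminant_eq]
  constructor
  · intro n
    have := polyY_coeff_mem R gS (κ e4Z) (κ e6Z) (κ deltaZ) hg he4 he6 hrel n
    rwa [hgmap, hE4, hE6, hD] at this
  · intro n
    set ε := PowerSeries.expand (R := ↥R) p hp with hε
    have he4' : (16 : PowerSeries ↥R) ∣ ε (κ e4Z) - 1 := by
      have := map_dvd ε he4
      rwa [map_sub, map_one, map_ofNat] at this
    have he6' : (8 : PowerSeries ↥R) ∣ ε (κ e6Z) - 1 := by
      have := map_dvd ε he6
      rwa [map_sub, map_one, map_ofNat] at this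
    have hrel' : ε (κ e4Z) ^ 3 - ε (κ e6Z) ^ 2 = 1728 * ε (κ deltaZ) := by
      have := congrArg ε hrel
      rwa [map_sub, map_pow, map_pow, map_mul, map_ofNat] at this
    have := polyY_coeff_mem R gS (ε (κ e4Z)) (ε (κ e6Z)) (ε (κ deltaZ)) hg he4' he6' hrel' n
    rwa [hgmap, hε, PowerSeries.map_expand, PowerSeries.map_expand, PowerSeries.map_expand,
      hE4, hE6, hD] at this

end Fermat.Agent.S16TA
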