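import Fermat.Agent.S16.ToolkitAlg.LevelOne

/-!
# S16 / TwoAdic7 / Rho: the value at `ρ = e^{2πi/3}` of level one forms (helper88)

* `rho`, `E4_rho : E₄ rho = 0`, `discriminant_rho_ne_zero`  (T6)
* `levelOne_value_rho` (T5 at `ρ`): a level one form `e` of weight `12 i` whose `q`-expansion has
  coefficients in a subring `R ⊆ ℂ` satisfies `e ρ = c * Δ(ρ)^i` with `c ∈ R`.
-/

set_option autoImplicit false

namespace Fermat.Agent.S16TA

open UpperHalfPlane ModularForm ModularFormClass EisensteinSeries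
open scoped MatrixGroups

/-- `ρ = -1/2 + (√3/2) i`. -/
noncomputable def rho : ℍ :=
  UpperHalfPlane.mk ⟨-1 / 2, Real.sqrt 3 / 2⟩ (by
    show (0 : ℝ) < Real.sqrt 3 / 2
    positivity)

theorem rho_coe : (rho : ℂ) = ⟨-1 / 2, Real.sqrt 3 / 2⟩ := rfl

theorem rho_add_one_sq : ((rho : ℂ) + 1) ^ 2 - ((rho : ℂ) + 1) + 1 = 0 := by
  have h3 : Real.sqrt 3 * Real.sqrt 3 = 3 := Real.mul_self_sqrt (by norm_num)
  rw [rho_coe]
  apply Complex.ext
  · simp [pow_two]
    nlinarith [h3]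
  · simp [pow_two]
    ring

theorem rho_add_two_ne_zero : (rho : ℂ) + 1 + 1 ≠ 0 := by
  intro h
  have := congrArg Complex.re h
  rw [rho_coe] at this
  simp at this
  norm_num at this

/-- `ST` fixes `ρ`. -/
theorem ST_smul_rho : (ModularGroup.S * ModularGroup.T) • rho = rho := by
  have hw := rho_add_one_sq
  apply UpperHalfPlane.ext
  rw [mul_smul, UpperHalfPlane.modular_T_smul, UpperHalfPlane.modular_S_smul]
  simp only [UpperHalfPlane.coe_vadd]
  apply inv_eq_of_mul_eq_one_left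
  push_cast
  linear_combination -hw

theorem denom_ST_rho : denom (ModularGroup.S * ModularGroup.T : SL(2, ℤ)) rho = (rho : ℂ) + 1 := by
  rw [ModularGroup.denom_apply]
  have h10 : ((ModularGroup.S * ModularGroup.T : SL(2, ℤ)) : Matrix (Fin 2) (Fin 2) ℤ) 1 0 = 1 := by
    simp [ModularGroup.coe_S, ModularGroup.coe_T, Matrix.mul_apply, Fin.sum_univ_two]
  have h11 : ((ModularGroup.S * ModularGroup.T : SL(2, ℤ)) : Matrix (Fin 2) (Fin 2) ℤ) 1 1 = 1 := by
    simp [ModularGroup.coe_S, ModularGroup.coe_T, Matrix.mul_apply, Fin.sum_univ_two]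
  rw [h10, h11]
  simp

/-- **T6**: `E₄(ρ) = 0`. -/
theorem E4_rho : E₄ rho = 0 := by
  have hγ : ((ModularGroup.S * ModularGroup.T : SL(2, ℤ)) : GL (Fin 2) ℝ) ∈ 𝒮ℒ := ⟨_, rfl⟩
  have h := SlashInvariantForm.slash_action_eqn'' E₄ hγ rho
  rw [← ModularGroup.sl_moeb, ST_smul_rho] at h
  have hd : denom ((ModularGroup.S * ModularGroup.T : SL(2, ℤ)) : GL (Fin 2) ℝ) rho
      = (rho : ℂ) + 1 := denom_ST_rho
  rw [hd] at h
  have hw := rho_add_one_sq
  have h4 : ((rho : ℂ) + 1) ^ (4 : ℤ) = -((rho : ℂ) + 1) := by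
    have : ((rho : ℂ) + 1) ^ (4 : ℤ) = ((rho : ℂ) + 1) ^ (4 : ℕ) := by norm_cast
    rw [this]
    linear_combination (((rho : ℂ) + 1) ^ 2 + ((rho : ℂ) + 1)) * hw
  rw [h4] at h
  have h' : ((rho : ℂ) + 1 + 1) * E₄ rho = 0 := by linear_combination h
  rcases mul_eq_zero.mp h' with h0 | h0
  · exact absurd h0 rho_add_two_ne_zero
  · exact h0

theorem discriminant_rho_ne_zero : ModularForm.discriminant rho ≠ 0 :=
  ModularForm.discriminant_ne_zero rho

/-- weight zero: the form is the constant `a₀`. -/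
theorem levelOne_wt0_value (e : ModularForm 𝒮ℒ 0) (z : ℍ) :
    e z = (qExpansion 1 e).coeff 0 := by
  obtain ⟨c, hc⟩ := ModularFormClass.levelOne_weight_zero_const e
  have he : e = c • (1 : ModularForm 𝒮ℒ 0) := by
    ext w
    have := congrFun hc w
    simpa using this
  have hq : qExpansion 1 e = c • (1 : PowerSeries ℂ) := by
    have h2 : (e : ℍ → ℂ) = c • ((1 : ModularForm 𝒮ℒ 0) : ℍ → ℂ) := by
      rw [he]; rfl
    rw [h2, ModularForm.qExpansion_smul one_pos one_mem_strictPeriods_SL c (1 : ModularForm 𝒮ℒ 0),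
      ModularForm.qExpansion_one]
  rw [hq, congrFun hc z]
  simp

/-- dividing by `Δ` keeps the coefficients in an additive subgroup. -/
theorem levelOne_div_coeff_mem (k : ℤ) (g : ModularForm 𝒮ℒ k) (M : AddSubgroup ℂ)
    (h0 : (qExpansion 1 g).coeff 0 = 0) (hg : ∀ j : ℕ, (qExpansion 1 g).coeff j ∈ M) (j : ℕ) :
    (qExpansion 1 (CuspForm.discriminantEquiv (toCuspForm g h0))).coeff j ∈ M :=
  Fermat.Agent.S16.levelOne_step k g M h0 j (fun i _ => hg i) j le_rfl

/-- **T5 at a zero of `E₄`**: a level one form of weight `12 i` with coefficients in a subring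
`R ⊆ ℂ` takes the value `c * Δ(τ)^i`, `c ∈ R`, at any `τ` with `E₄ τ = 0`. -/
theorem levelOne_value_of_E4_zero (R : Subring ℂ) (τ : ℍ) (hτ : E₄ τ = 0) :
    ∀ (i : ℕ) (k : ℤ), k = 12 * (i : ℤ) → ∀ e : ModularForm 𝒮ℒ k,
      (∀ n : ℕ, (qExpansion 1 e).coeff n ∈ R) →
      ∃ c ∈ R, e τ = c * ModularForm.discriminant τ ^ i := by
  intro i
  induction i with
  | zero =>
    intro k hk e he
    have hk0 : k = 0 := by simpa using hk
    subst hk0
    exact ⟨(qExpansion 1 e).coeff 0, he 0, by rw [levelOne_wt0_value e τ]; simp⟩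
  | succ i ih =>
    intro k hk e he
    have hab : (4 * ((3 * (i + 1) : ℕ) : ℤ) + 6 * ((0 : ℕ) : ℤ) : ℤ) = k := by
      rw [hk]; push_cast; ring
    set E := Fermat.Agent.S23.monoForm k (3 * (i + 1)) 0 hab with hE
    have hEint : Fermat.Agent.S23.IsIntSeries (qExpansion 1 E) :=
      Fermat.Agent.S23.isIntSeries_monoForm k _ _ hab
    have hE0 : (qExpansion 1 E).coeff 0 = 1 :=
      Fermat.Agent.S23.qExpansion_monoForm_coeff_zero k _ _ hab
    have hEτ : E τ = 0 := by
      rw [hE, Fermat.Agent.S23.monoForm_apply, hτ]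
      simp
    set c := (qExpansion 1 e).coeff 0 with hc
    have hcR : c ∈ R := he 0
    set g : ModularForm 𝒮ℒ k := e - c • E with hg
    have hgq : qExpansion 1 g = qExpansion 1 e - c • qExpansion 1 E := by
      have h1 : (g : ℍ → ℂ) = (e : ℍ → ℂ) - ((c • E : ModularForm 𝒮ℒ k) : ℍ → ℂ) := rfl
      rw [h1, ModularForm.qExpansion_sub one_pos one_mem_strictPeriods_SL e (c • E)]
      have h2 : ((c • E : ModularForm 𝒮ℒ k) : ℍ → ℂ) = c • (E : ℍ → ℂ) := rfl
      rw [h2, ModularForm.qExpansion_smul one_pos one_mem_strictPeriods_SL c E]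
    have hgcoeff : ∀ j : ℕ, (qExpansion 1 g).coeff j =
        (qExpansion 1 e).coeff j - c * (qExpansion 1 E).coeff j := by
      intro j
      rw [hgq]
      simp
    have hg0 : (qExpansion 1 g).coeff 0 = 0 := by
      rw [hgcoeff, hE0, mul_one, ← hc, sub_self]
    have hgR : ∀ j : ℕ, (qExpansion 1 g).coeff j ∈ R.toAddSubgroup := by
      intro j
      rw [hgcoeff]
      obtain ⟨z, hz⟩ := hEint j
      rw [hz]
      exact R.sub_mem (he j) (R.mul_mem hcR (intCast_mem R z))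
    set g' := CuspForm.discriminantEquiv (toCuspForm g hg0) with hg'
    have hg'R : ∀ j : ℕ, (qExpansion 1 g').coeff j ∈ R := fun j =>
      levelOne_div_coeff_mem k g R.toAddSubgroup hg0 hgR j
    obtain ⟨c', hc'R, hc'⟩ := ih (k - 12) (by rw [hk]; push_cast; ring) g' hg'R
    refine ⟨c', hc'R, ?_⟩
    have hgτ : g τ = ModularForm.discriminant τ * g' τ := by
      rw [hg', ModularForm.discriminant_mul_discriminantEquiv_apply, toCuspForm_apply]
    have heτ : e τ = g τ + c * E τ := by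
      have : g τ = e τ - c * E τ := rfl
      rw [this]; ring
    rw [heτ, hgτ, hc', hEτ]
    ring

/-- **T5 at `ρ`**. -/
theorem levelOne_value_rho (R : Subring ℂ) (i : ℕ) (e : ModularForm 𝒮ℒ (12 * (i : ℤ)))
    (he : ∀ n : ℕ, (qExpansion 1 e).coeff n ∈ R) :
    ∃ c ∈ R, e rho = c * ModularForm.discriminant rho ^ i :=
  levelOne_value_of_E4_zero R rho E4_rho i _ rfl e he

end Fermat.Agent.S16TA
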