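import Fermat.Agent.S16.TwoAdic7.Defs
import Fermat.Agent.S16.ToolkitAlg.Root

/-!
# S16 / TwoAdic7, piece T7: `RootStatement`

Owner: helper99.  Direct consequence of `CuspZeroData.root_identity`
(`Fermat/Agent/S16/ToolkitAlg/Root.lean`).
-/

set_option autoImplicit false

namespace Fermat.Agent.S16TA

open UpperHalfPlane ModularForm ModularFormClass
open scoped MatrixGroups

open Fermat.Agent.S16

/-- (T7) the root identity, in the exact form of the contract `RootStatement`. -/
theorem rootStatement (p : ℕ) (hp : p ≠ 0) (T : CuspZeroData p hp) : RootStatement p hp T := by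
  intro k Y
  obtain ⟨e, he, -, -, hroot⟩ := T.root_identity k Y
  refine ⟨e, he, fun τ => ?_⟩
  rw [← hroot τ]
  exact Finset.sum_congr rfl fun i _ => mul_assoc _ _ _

/-- Complement to `rootStatement`: the same `e` can be chosen with `e 0 = 1`. -/
theorem rootStatement_one (p : ℕ) (hp : p ≠ 0) (T : CuspZeroData p hp) (k : ℤ)
    (Y : ModularForm (CongruenceSubgroup.Gamma0 p) k) :
    ∃ e : ∀ i : ℕ, ModularForm 𝒮ℒ (k * i),
      (∀ i : ℕ, PowerSeries.expand p hp (qExpansion 1 (e i)) =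
        (conjSeries p hp (qExpansion 1 Y) (T.Z k Y)).esymm i) ∧
      (∀ τ : ℍ, e 0 τ = 1) ∧
      ∀ τ : ℍ, ∑ i ∈ Finset.range (p + 2), (-1 : ℂ) ^ i * e i τ * Y τ ^ (p + 1 - i) = 0 := by
  obtain ⟨e, he, -, h0, hroot⟩ := T.root_identity k Y
  refine ⟨e, he, h0, fun τ => ?_⟩
  rw [← hroot τ]
  exact Finset.sum_congr rfl fun i _ => mul_assoc _ _ _

end Fermat.Agent.S16TA
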