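import Fermat.Agent.S16.TwoAdic7.Defs
import Fermat.Agent.S16.TwoAdic7.FormInt
import Fermat.Agent.S16.TwoAdic7.FormExp
import Fermat.Agent.S16.TwoAdic7.Root
import Fermat.Agent.S16.TwoAdic7.Rho
import Fermat.Agent.S16.ToolkitAlg.Integral
import Fermat.Agent.S16.ToolkitAlg.Trace

/-!
# S16 / TwoAdic7: assembly (helper67)

`noCong_two_seven_of_ring`: for `p ≡ 7 mod 8` and any subring `R ⊆ ℂ` with `1/p ∈ R`,
`1/2 ∉ R`: `NoCong p 2 3`.  (helper37's value-at-`ρ` argument, pieces by helper88, helper99.)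
-/

set_option autoImplicit false

namespace Fermat.Agent.S16TA

open UpperHalfPlane ModularForm ModularFormClass EisensteinSeries
open scoped MatrixGroups

open Fermat.Agent.S16

/-- The endgame: `∑ (-1)^i c_i D^i y^(n-i) = 0` with `2 y = -D`, `D ≠ 0`, `c_0 = 1`, `c_i ∈ R`
forces `1/2 ∈ R`. -/
theorem main_endgame (R : Subring ℂ) (n : ℕ) (c : ℕ → ℂ) (hc : ∀ i, c i ∈ R) (hc0 : c 0 = 1)
    (D y : ℂ) (hD : D ≠ 0) (hy : 2 * y = -D)
    (hroot : ∑ i ∈ Finset.range (n + 1), (-1 : ℂ) ^ i * (c i * D ^ i) * y ^ (n - i) = 0) :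
    ((2 : ℂ))⁻¹ ∈ R := by
  have hterm : ∀ i ∈ Finset.range (n + 1),
      2 ^ n * ((-1 : ℂ) ^ i * (c i * D ^ i) * y ^ (n - i)) = (-1) ^ n * D ^ n * (c i * 2 ^ i) := by
    intro i hi
    have hin : i ≤ n := Nat.lt_succ_iff.mp (Finset.mem_range.mp hi)
    obtain ⟨j, rfl⟩ := Nat.exists_eq_add_of_le hin
    have h1 : i + j - i = j := by omega
    rw [h1]
    have h2 : (2 : ℂ) ^ j * y ^ j = (-D) ^ j := by rw [← mul_pow, hy]
    calc (2 : ℂ) ^ (i + j) * ((-1) ^ i * (c i * D ^ i) * y ^ j)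
        = (-1) ^ i * (c i * D ^ i) * 2 ^ i * (2 ^ j * y ^ j) := by ring
      _ = (-1) ^ i * (c i * D ^ i) * 2 ^ i * (-D) ^ j := by rw [h2]
      _ = (-1) ^ (i + j) * D ^ (i + j) * (c i * 2 ^ i) := by
          rw [neg_pow D j]; ring
  have hsum : (-1 : ℂ) ^ n * D ^ n * ∑ i ∈ Finset.range (n + 1), c i * 2 ^ i = 0 := by
    rw [Finset.mul_sum, ← Finset.sum_congr rfl hterm, ← Finset.mul_sum, hroot, mul_zero]
  have hne : (-1 : ℂ) ^ n * D ^ n ≠ 0 := mul_ne_zero (pow_ne_zero _ (by norm_num))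
    (pow_ne_zero _ hD)
  have hsum' : ∑ i ∈ Finset.range (n + 1), c i * 2 ^ i = 0 :=
    (mul_eq_zero.mp hsum).resolve_left hne
  rw [Finset.sum_range_succ', hc0] at hsum'
  set r : ℂ := ∑ i ∈ Finset.range n, c (i + 1) * 2 ^ i with hr
  have hrR : r ∈ R := R.sum_mem fun i _ =>
    R.mul_mem (hc _) (R.pow_mem (by simpa using R.natCast_mem 2) _)
  have h2r : 2 * r = -1 := by
    have : ∑ i ∈ Finset.range n, c (i + 1) * 2 ^ (i + 1) = 2 * r := by
      rw [hr, Finset.mul_sum]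
      exact Finset.sum_congr rfl fun i _ => by ring
    rw [this] at hsum'
    linear_combination hsum'
  have : ((2 : ℂ))⁻¹ = -r :=
    inv_eq_of_mul_eq_one_right (by linear_combination -h2r)
  rw [this]
  exact R.neg_mem hrR

/-- an odd integer has square `≡ 1 mod 8` -/
lemma main_odd_sq (a : ℤ) (h : ¬ (2 : ℤ) ∣ a) : (8 : ℤ) ∣ a * a - 1 := by
  have h1 : a % 2 = 1 := by omega
  obtain ⟨m, hm⟩ : ∃ m, a = 2 * m + 1 := ⟨a / 2, by omega⟩
  subst hm
  obtain ⟨t, ht⟩ := Int.even_mul_succ_self m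
  refine ⟨t, ?_⟩
  linear_combination 4 * ht

/-- **TwoAdic7, modulo the choice of the ring.** -/
theorem noCong_two_seven_of_ring (p : ℕ) [Fact p.Prime] (hp8 : p % 8 = 7)
    (T : CuspZeroData p (Fact.out : p.Prime).ne_zero)
    (R : Subring ℂ) (hpR : ((p : ℂ))⁻¹ ∈ R) (h2R : ((2 : ℂ))⁻¹ ∉ R) : NoCong p 2 3 := by
  have hp : p ≠ 0 := (Fact.out : p.Prime).ne_zero
  intro G a ha h8
  by_contra hodd
  have hodd' : ¬ (2 : ℤ) ∣ a 0 := by simpa using hodd
  have h8' : ∀ k : ℕ, 1 ≤ k → (8 : ℤ) ∣ a k := fun k hk => by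
    have := h8 k hk
    norm_num at this
    exact this
  have hsq := main_odd_sq (a 0) hodd'
  -- normalise
  set G' : ModularForm (CongruenceSubgroup.Gamma0 p) 2 := ((a 0 : ℤ) : ℂ) • G with hG'
  have hA : ∀ n : ℕ, (qExpansion 1 G').coeff n = ((a 0 * a n : ℤ) : ℂ) := by
    intro n
    have h2 : ((G' : ModularForm (CongruenceSubgroup.Gamma0 p) 2) : ℍ → ℂ) =
        ((a 0 : ℤ) : ℂ) • (G : ℍ → ℂ) := rfl
    rw [h2, ModularForm.qExpansion_smul one_pos (Fermat.Agent.S23.one_mem_strictPeriods_G0 p)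
      ((a 0 : ℤ) : ℂ) G]
    have := ha n
    rw [ModularFormClass.qCoeff] at this
    rw [PowerSeries.coeff_smul, this]
    push_cast
    rfl
  have hB : ∀ n : ℕ, (T.Z 2 G').coeff n = -((p : ℂ)⁻¹) * ((a 0 * a (p * n) : ℤ) : ℂ) := by
    intro n
    rw [T.coeff_Z_two G' n, hA]
  -- the form `Y`
  obtain ⟨Y, hYfun, hYq, hYZ⟩ := formExp p hp T G'
  have hintR : ∀ m : ℤ, ((m : ℤ) : ℂ) ∈ R := fun m => intCast_mem R m
  -- integrality at `∞`
  have hYqR : ∀ n : ℕ, (qExpansion 1 Y).coeff n ∈ R := by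
    rw [hYq]
    refine (formInt p hp R (qExpansion 1 G') ?_ ?_).1
    · obtain ⟨t, ht⟩ := hsq
      refine ⟨(t : ℂ), hintR t, ?_⟩
      rw [hA]
      have : ((a 0 * a 0 : ℤ) : ℂ) - 1 = ((a 0 * a 0 - 1 : ℤ) : ℂ) := by push_cast; ring
      rw [this, ht]
      push_cast
      ring
    · intro n hn
      obtain ⟨t, ht⟩ := h8' n hn
      refine ⟨((a 0 * t : ℤ) : ℂ), hintR _, ?_⟩
      rw [hA, ht]
      push_cast
      ring
  -- integrality at `0`
  have hp8' : (8 : ℤ) ∣ (p : ℤ) + 1 := by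
    have : ((p : ℤ)) % 8 = 7 := by exact_mod_cast hp8
    omega
  have hpne : (p : ℂ) ≠ 0 := Nat.cast_ne_zero.mpr hp
  have hYZR : ∀ n : ℕ, (T.Z 12 Y).coeff n ∈ R := by
    rw [hYZ]
    refine (formInt p hp R (T.Z 2 G') ?_ ?_).2
    · obtain ⟨t, ht⟩ := hsq
      obtain ⟨s, hs⟩ := hp8'
      refine ⟨-((p : ℂ)⁻¹) * ((t + s : ℤ) : ℂ), R.mul_mem (R.neg_mem hpR) (hintR _), ?_⟩
      rw [hB, mul_zero]
      have e1 : ((a 0 * a 0 : ℤ) : ℂ) = 8 * (t : ℂ) + 1 := by
        have : ((a 0 * a 0 - 1 : ℤ) : ℂ) = ((8 * t : ℤ) : ℂ) := by rw [ht]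
        push_cast at this ⊢
        linear_combination this
      have e2 : (p : ℂ) = 8 * (s : ℂ) - 1 := by
        have : (((p : ℤ) + 1 : ℤ) : ℂ) = ((8 * s : ℤ) : ℂ) := by rw [hs]
        push_cast at this ⊢
        linear_combination this
      rw [e1]
      push_cast
      field_simp
      linear_combination -e2
    · intro n hn
      have hpn : 1 ≤ p * n := Nat.one_le_iff_ne_zero.mpr (Nat.mul_ne_zero hp (by omega))
      obtain ⟨t, ht⟩ := h8' (p * n) hpn
      refine ⟨-((p : ℂ)⁻¹) * ((a 0 * t : ℤ) : ℂ), R.mul_mem (R.neg_mem hpR) (hintR _), ?_⟩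
      rw [hB, ht]
      push_cast
      ring
  -- the level one forms `e i`
  obtain ⟨e, he, he0, hroot⟩ := rootStatement_one p hp T 12 Y
  have heR : ∀ i n : ℕ, (qExpansion 1 (e i)).coeff n ∈ R := by
    intro i n
    have h1 := esymm_conjSeries_coeff_mem p hp R (qExpansion 1 Y) (T.Z 12 Y) hYqR hYZR i (p * n)
    rw [← he i, PowerSeries.coeff_expand_mul] at h1
    exact h1
  -- values at `ρ`
  have hval : ∀ i : ℕ, ∃ c ∈ R, e i rho = c * ModularForm.discriminant rho ^ i := fun i =>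
    levelOne_value_of_E4_zero R rho E4_rho i _ rfl (e i) (heR i)
  choose c hcR hc using hval
  set c' : ℕ → ℂ := fun i => if i = 0 then 1 else c i with hc'
  have hc'R : ∀ i, c' i ∈ R := by
    intro i
    simp only [hc']
    split_ifs
    · exact R.one_mem
    · exact hcR i
  have hc'e : ∀ i, e i rho = c' i * ModularForm.discriminant rho ^ i := by
    intro i
    simp only [hc']
    split_ifs with h
    · subst h
      rw [he0 rho, pow_zero, mul_one]
    · exact hc i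
  have hYrho : 2 * Y rho = -ModularForm.discriminant rho := by
    have := hYfun rho
    rw [E4_rho] at this
    linear_combination this / 256
  have hr := hroot rho
  have hr' : ∑ i ∈ Finset.range (p + 1 + 1), (-1 : ℂ) ^ i *
      (c' i * ModularForm.discriminant rho ^ i) * Y rho ^ (p + 1 - i) = 0 := by
    rw [← hr]
    exact Finset.sum_congr rfl fun i _ => by rw [hc'e i]
  exact h2R (main_endgame R (p + 1) c' hc'R (by simp [hc']) (ModularForm.discriminant rho) (Y rho)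
    discriminant_rho_ne_zero hYrho hr')

end Fermat.Agent.S16TA
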