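import Mathlib

/-!
# S16 / TwoAdic7: the coefficient ring (helper67)

`oddIntRing = {x : ℂ | ∃ n odd, n x ∈ ℤ}` (rationals with odd denominator): it contains `1/p` for
odd `p` and does not contain `1/2`.
-/

set_option autoImplicit false

namespace Fermat.Agent.S16TA

/-- complex numbers `x` with `n x ∈ ℤ` for some odd `n` -/
def oddIntRing : Subring ℂ where
  carrier := {x | ∃ (n : ℕ) (m : ℤ), Odd n ∧ (n : ℂ) * x = m}
  mul_mem' := by
    rintro x y ⟨n, m, hn, h⟩ ⟨n', m', hn', h'⟩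
    refine ⟨n * n', m * m', hn.mul hn', ?_⟩
    push_cast
    rw [← h, ← h']
    ring
  one_mem' := ⟨1, 1, odd_one, by simp⟩
  add_mem' := by
    rintro x y ⟨n, m, hn, h⟩ ⟨n', m', hn', h'⟩
    refine ⟨n * n', m * n' + m' * n, hn.mul hn', ?_⟩
    push_cast
    rw [← h, ← h']
    ring
  zero_mem' := ⟨1, 0, odd_one, by simp⟩
  neg_mem' := by
    rintro x ⟨n, m, hn, h⟩
    refine ⟨n, -m, hn, ?_⟩
    push_cast
    rw [← h]
    ring

theorem exists_oddIntRing (p : ℕ) (hp : Odd p) :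
    ∃ R : Subring ℂ, ((p : ℂ))⁻¹ ∈ R ∧ ((2 : ℂ))⁻¹ ∉ R := by
  refine ⟨oddIntRing, ⟨p, 1, hp, ?_⟩, ?_⟩
  · have : (p : ℂ) ≠ 0 := by
      rintro h
      have : p = 0 := by exact_mod_cast h
      subst this
      simp at hp
    push_cast
    exact mul_inv_cancel₀ this
  · rintro ⟨n, m, hn, h⟩
    have h2 : ((n : ℤ) : ℂ) = ((2 * m : ℤ) : ℂ) := by
      push_cast
      rw [← h]
      field_simp
    have h3 : (n : ℤ) = 2 * m := by exact_mod_cast h2
    obtain ⟨t, ht⟩ := hn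
    omega

end Fermat.Agent.S16TA
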