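import Fermat.Agent.S16.Defs
import Mathlib.NumberTheory.ModularForms.LevelOne.GradedRing

/-!
# S16 / TwoAdic7: contract between the pieces (sub-architect: helper67)

Goal (`S16/TwoAdic7.lean`): `noCong_two_seven : p ≡ 7 mod 8 → CuspZeroData p → NoCong p 2 3`
(helper37's value-at-`ρ` argument).  This file contains only definitions (the contract).

| piece | file | owner | status |
|---|---|---|---|
| T1 algebra (`algebra_T1_map`)              | `TwoAdic7/Algebra.lean`    | helper88 | done |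
| T5/T6 (`levelOne_value_of_E4_zero`, `rho`) | `TwoAdic7/Rho.lean`        | helper88 | done |
| T4 (`esymm_conjSeries_coeff_mem`)          | `ToolkitAlg/Integral.lean` | helper99 | done |
| T3 (`CuspZeroData.coeff_Z_two`)            | `ToolkitAlg/Trace.lean`    | helper99 | done |
| T7 `RootStatement p hp T`                  | `ToolkitAlg/Root.lean`     | helper99 | |
| T2a `FormExpStatement p hp T`              | `TwoAdic7/FormExp.lean`    | helper88 | |
| T2b `FormIntStatement p hp`                | `TwoAdic7/FormInt.lean`    | helper67 | |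
| ring `oddRing`, assembly                   | `TwoAdic7/Main.lean`       | helper67 | |
-/

set_option autoImplicit false

namespace Fermat.Agent.S16TA

open UpperHalfPlane ModularForm ModularFormClass EisensteinSeries
open scoped MatrixGroups

open Fermat.Agent.S16

/-- The isobaric polynomial `P(g, e4, e6, d) = ((θ g - φ²) e4 - d) / 2` with
`φ = (g² - e4)/16`, `ψ = (g³ - e6)/8`, `θ = (ψ - 3 φ g)/4`, written out:
`P = (-5 g⁴ e4 + 14 g² e4² - 8 g e4 e6 - e4³ - 256 d) / 512`. -/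
noncomputable def polyY (g e4 e6 d : PowerSeries ℂ) : PowerSeries ℂ :=
  PowerSeries.C ((512 : ℂ)⁻¹) *
    (-5 * g ^ 4 * e4 + 14 * g ^ 2 * e4 ^ 2 - 8 * g * e4 * e6 - e4 ^ 3 - 256 * d)

/-- (T7) the root identity: `Y` is a root of `∏ (X - conjugates) = ∑ (-1)^i e_i X^(p+1-i)`. -/
def RootStatement (p : ℕ) (hp : p ≠ 0) (T : CuspZeroData p hp) : Prop :=
  ∀ (k : ℤ) (Y : ModularForm (CongruenceSubgroup.Gamma0 p) k),
    ∃ e : ∀ i : ℕ, ModularForm 𝒮ℒ (k * i),
      (∀ i : ℕ, PowerSeries.expand p hp (qExpansion 1 (e i)) =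
        (conjSeries p hp (qExpansion 1 Y) (T.Z k Y)).esymm i) ∧
      ∀ τ : ℍ, ∑ i ∈ Finset.range (p + 2), (-1 : ℂ) ^ i * e i τ * Y τ ^ (p + 1 - i) = 0

/-- (T2a) the form `Y = P(G, E₄, E₆, Δ)` of weight `12` on `Γ₀(p)` and its expansions at the two
cusps. -/
def FormExpStatement (p : ℕ) (hp : p ≠ 0) (T : CuspZeroData p hp) : Prop :=
  ∀ G : ModularForm (CongruenceSubgroup.Gamma0 p) 2,
    ∃ Y : ModularForm (CongruenceSubgroup.Gamma0 p) 12,
      (∀ τ : ℍ, 512 * Y τ = -5 * G τ ^ 4 * E₄ τ + 14 * G τ ^ 2 * E₄ τ ^ 2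
        - 8 * G τ * E₄ τ * E₆ τ - E₄ τ ^ 3 - 256 * ModularForm.discriminant τ) ∧
      qExpansion 1 Y = polyY (qExpansion 1 G) (qExpansion 1 E₄) (qExpansion 1 E₆)
        (qExpansion 1 ModularForm.discriminant) ∧
      T.Z 12 Y = polyY (T.Z 2 G) (PowerSeries.expand p hp (qExpansion 1 E₄))
        (PowerSeries.expand p hp (qExpansion 1 E₆))
        (PowerSeries.expand p hp (qExpansion 1 ModularForm.discriminant))

/-- (T2b) integrality of `P(g, E₄, E₆, Δ)` and `P(g, E₄(q^p), E₆(q^p), Δ(q^p))` for a series `g`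
with coefficients in `R`, `g ≡ 1 mod 8 R⟦q⟧`. -/
def FormIntStatement (p : ℕ) (hp : p ≠ 0) : Prop :=
  ∀ (R : Subring ℂ) (g : PowerSeries ℂ),
    (∃ r ∈ R, g.coeff 0 - 1 = 8 * r) → (∀ n : ℕ, 1 ≤ n → ∃ r ∈ R, g.coeff n = 8 * r) →
    (∀ n : ℕ, (polyY g (qExpansion 1 E₄) (qExpansion 1 E₆)
        (qExpansion 1 ModularForm.discriminant)).coeff n ∈ R) ∧
    (∀ n : ℕ, (polyY g (PowerSeries.expand p hp (qExpansion 1 E₄))
        (PowerSeries.expand p hp (qExpansion 1 E₆))
        (PowerSeries.expand p hp (qExpansion 1 ModularForm.discriminant))).coeff n ∈ R)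

end Fermat.Agent.S16TA
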