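import Mathlib

/-!
# S16 / TwoAdic7: the ring of `2`-integral rationals inside `ℂ` and the end game (helper99)

* `exists_oddRing`: for odd `p` there is a subring `R ≤ ℂ` with `1/p ∈ R` and `1/2 ∉ R`
  (`R = {x | ∃ n odd, n • x ∈ ℤ}`).
* `endgame`: if `1/2 ∉ R`, `c i ∈ R`, `c 0 = 1`, `D ≠ 0`, `2 y = -D`, then
  `∑_{i ≤ n} (-1)^i (c_i D^i) y^(n-i) ≠ 0`.
-/

set_option autoImplicit false

namespace Fermat.Agent.S16TA

/-- The subring of `ℂ` of rational numbers with odd denominator. -/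
def oddRing : Subring ℂ where
  carrier := {x | ∃ (n : ℕ) (m : ℤ), Odd n ∧ (n : ℂ) * x = m}
  zero_mem' := ⟨1, 0, odd_one, by simp⟩
  one_mem' := ⟨1, 1, odd_one, by simp⟩
  add_mem' := by
    rintro x y ⟨n₁, m₁, h₁, e₁⟩ ⟨n₂, m₂, h₂, e₂⟩
    refine ⟨n₁ * n₂, m₁ * n₂ + m₂ * n₁, h₁.mul h₂, ?_⟩
    push_cast
    rw [← e₁, ← e₂]
    ring
  mul_mem' := by
    rintro x y ⟨n₁, m₁, h₁, e₁⟩ ⟨n₂, m₂, h₂, e₂⟩
    refine ⟨n₁ * n₂, m₁ * m₂, h₁.mul h₂, ?_⟩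
    push_cast
    rw [← e₁, ← e₂]
    ring
  neg_mem' := by
    rintro x ⟨n, m, h, e⟩
    refine ⟨n, -m, h, ?_⟩
    push_cast
    rw [← e]
    ring

theorem mem_oddRing {x : ℂ} :
    x ∈ oddRing ↔ ∃ (n : ℕ) (m : ℤ), Odd n ∧ (n : ℂ) * x = m := Iff.rfl

theorem inv_mem_oddRing (p : ℕ) (hp : Odd p) : ((p : ℂ))⁻¹ ∈ oddRing := by
  refine ⟨p, 1, hp, ?_⟩
  have hp0 : (p : ℂ) ≠ 0 := by
    have : p ≠ 0 := fun h => by subst h; simp at hp
    exact_mod_cast this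
  simp [hp0]

theorem inv_two_not_mem_oddRing : ((2 : ℂ))⁻¹ ∉ oddRing := by
  rintro ⟨n, m, hn, e⟩
  have h1 : (n : ℂ) = 2 * (m : ℂ) := by
    have : (n : ℂ) * (2 : ℂ)⁻¹ * 2 = (m : ℂ) * 2 := by rw [e]
    rw [mul_assoc, inv_mul_cancel₀ (two_ne_zero), mul_one] at this
    rw [this]; ring
  have h2 : (n : ℤ) = 2 * m := by exact_mod_cast h1
  have h3 : Odd (n : ℤ) := by exact_mod_cast hn
  rw [h2] at h3
  exact (Int.not_odd_iff_even.mpr (even_two_mul m)) h3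

/-- For odd `p` there is a subring of `ℂ` containing `1/p` but not `1/2`. -/
theorem exists_oddRing (p : ℕ) (hp : Odd p) :
    ∃ R : Subring ℂ, ((p : ℂ))⁻¹ ∈ R ∧ ((2 : ℂ))⁻¹ ∉ R :=
  ⟨oddRing, inv_mem_oddRing p hp, inv_two_not_mem_oddRing⟩

/-- The end game: `y = -D/2` cannot be a root of a monic polynomial
`∑ (-1)^i (c_i D^i) X^(n-i)` with `c_i` in a subring of `ℂ` not containing `1/2`. -/
theorem endgame (R : Subring ℂ) (h2 : ((2 : ℂ))⁻¹ ∉ R) (n : ℕ) (c : ℕ → ℂ)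
    (hc : ∀ i, c i ∈ R) (hc0 : c 0 = 1)
    (D y : ℂ) (hD : D ≠ 0) (hy : 2 * y = -D)
    (hroot : ∑ i ∈ Finset.range (n + 1), (-1 : ℂ) ^ i * (c i * D ^ i) * y ^ (n - i) = 0) :
    False := by
  have hyD : D = -(2 * y) := by rw [hy]; ring
  have hy0 : y ≠ 0 := by
    rintro rfl
    apply hD
    rw [hyD]; ring
  -- every term equals `c i * 2 ^ i * y ^ n`
  have hterm : ∀ i ∈ Finset.range (n + 1),
      (-1 : ℂ) ^ i * (c i * D ^ i) * y ^ (n - i) = c i * 2 ^ i * y ^ n := by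
    intro i hi
    have hin : i ≤ n := Nat.lt_succ_iff.mp (Finset.mem_range.mp hi)
    have hn : y ^ n = y ^ i * y ^ (n - i) := by
      rw [← pow_add, Nat.add_sub_cancel' hin]
    have h1 : (-1 : ℂ) ^ i * D ^ i = 2 ^ i * y ^ i := by
      rw [hyD, ← mul_pow, ← mul_pow]
      congr 1
      ring
    calc (-1 : ℂ) ^ i * (c i * D ^ i) * y ^ (n - i)
        = c i * ((-1 : ℂ) ^ i * D ^ i) * y ^ (n - i) := by ring
      _ = c i * (2 ^ i * y ^ i) * y ^ (n - i) := by rw [h1]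
      _ = c i * 2 ^ i * (y ^ i * y ^ (n - i)) := by ring
      _ = c i * 2 ^ i * y ^ n := by rw [← hn]
  rw [Finset.sum_congr rfl hterm, ← Finset.sum_mul] at hroot
  have hsum : ∑ i ∈ Finset.range (n + 1), c i * (2 : ℂ) ^ i = 0 := by
    rcases mul_eq_zero.mp hroot with h | h
    · exact h
    · exact absurd h (pow_ne_zero n hy0)
  rw [Finset.sum_range_succ', pow_zero, mul_one, hc0] at hsum
  -- `∑_{i<n} c (i+1) 2^(i+1) + 1 = 0`
  set r : ℂ := ∑ i ∈ Finset.range n, c (i + 1) * (2 : ℂ) ^ i with hr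
  have hrR : r ∈ R := by
    refine Subring.sum_mem R fun i _ => ?_
    refine R.mul_mem (hc _) (R.pow_mem ?_ i)
    have : (2 : ℂ) = 1 + 1 := by norm_num
    rw [this]
    exact R.add_mem R.one_mem R.one_mem
  have h2r : 2 * r + 1 = 0 := by
    rw [← hsum, hr, Finset.mul_sum]
    congr 1
    refine Finset.sum_congr rfl fun i _ => ?_
    rw [pow_succ]
    ring
  apply h2
  have : (2 : ℂ)⁻¹ = -r := by
    have h3 : (2 : ℂ) * (-r) = 1 := by linear_combination -h2r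
    exact (eq_inv_of_mul_eq_one_right h3).symm
  rw [this]
  exact R.neg_mem hrR

end Fermat.Agent.S16TA
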